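/-
S18lib / V / IntRing  (helper4)

The ring of `A`-integral Laurent series whose characteristic-zero image lies in the function field
`FBar N = Q̄(j(q^d) : d ∣ N)` and whose reduction lies in `FRes A N = k(j̄(q^d) : d ∣ N)`.
Everything here is independent of the reduction inputs `h`.
-/
import Fermat.Agent.S18lib.Setup.Modular

set_option autoImplicit false

noncomputable section

namespace Fermat.Agent.S18lib.V

open AlgebraicCurve ModularCurve HahnSeries

variable (N : ℕ) (A : ValuationSubring (AlgebraicClosure ℚ))

/-- characteristic-zero image of an `A`-integral Laurent series -/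
def toL : LaurentSeries A →+* LaurentSeries (AlgebraicClosure ℚ) := coeffMap A.subtype

/-- reduction of an `A`-integral Laurent series -/
def toK : LaurentSeries A →+* LaurentSeries (IsLocalRing.ResidueField A) :=
  coeffMap (IsLocalRing.residue A)

variable {A}

theorem toL_coeff (y : LaurentSeries A) (n : ℤ) : (toL A y).coeff n = (y.coeff n : AlgebraicClosure ℚ) :=
  rfl

theorem toK_coeff (y : LaurentSeries A) (n : ℤ) :
    (toK A y).coeff n = IsLocalRing.residue A (y.coeff n) :=
  rfl

theorem toL_injective : Function.Injective (toL A) := by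
  intro x y hxy
  ext n
  have := congrArg (fun z => z.coeff n) hxy
  simpa [toL_coeff] using this

theorem toL_ne_zero {y : LaurentSeries A} (hy : y ≠ 0) : toL A y ≠ 0 := fun h =>
  hy (toL_injective (by rw [h, map_zero]))

theorem ne_zero_of_toK_ne_zero {y : LaurentSeries A} (hy : toK A y ≠ 0) : y ≠ 0 := by
  rintro rfl
  exact hy (map_zero _)

theorem toL_ne_zero_of_toK_ne_zero {y : LaurentSeries A} (hy : toK A y ≠ 0) : toL A y ≠ 0 :=
  toL_ne_zero (ne_zero_of_toK_ne_zero hy)

/-- a Laurent series with nonzero reduction has a unit coefficient -/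
theorem exists_isUnit_coeff {y : LaurentSeries A} (hy : toK A y ≠ 0) :
    ∃ n : ℤ, IsUnit (y.coeff n) := by
  by_contra hne
  push Not at hne
  apply hy
  ext n
  rw [toK_coeff, HahnSeries.coeff_zero, IsLocalRing.residue_eq_zero_iff]
  exact (IsLocalRing.mem_maximalIdeal _).mpr (hne n)

variable (A)

/-- the constant series -/
def constA (a : A) : LaurentSeries A := HahnSeries.single 0 a

variable {A}

theorem toL_constA (a : A) :
    toL A (constA A a) = algebraMap (AlgebraicClosure ℚ) (LaurentSeries (AlgebraicClosure ℚ)) (a : AlgebraicClosure ℚ) := by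
  rw [constA, toL, coeffMap_single, algebraMap_laurentSeries_eq_single]
  rfl

theorem toK_constA (a : A) :
    toK A (constA A a) = algebraMap (IsLocalRing.ResidueField A) (LaurentSeries (IsLocalRing.ResidueField A))
      (IsLocalRing.residue A a) := by
  rw [constA, toK, coeffMap_single, algebraMap_laurentSeries_eq_single]

variable (A)

/-- The ring of integral modular functions: `A`-integral Laurent series with image in `FBar N`
and reduction in `FRes A N`. -/
def IntRing : Subring (LaurentSeries A) where
  carrier := {y | toL A y ∈ modularFunctionFieldBar N ∧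
    toK A y ∈ modularFunctionFieldFullC (IsLocalRing.ResidueField A) N}
  mul_mem' := by
    rintro x y ⟨hx, hx'⟩ ⟨hy, hy'⟩
    exact ⟨by rw [map_mul]; exact mul_mem hx hy, by rw [map_mul]; exact mul_mem hx' hy'⟩
  one_mem' := ⟨by rw [map_one]; exact one_mem _, by rw [map_one]; exact one_mem _⟩
  add_mem' := by
    rintro x y ⟨hx, hx'⟩ ⟨hy, hy'⟩
    exact ⟨by rw [map_add]; exact add_mem hx hy, by rw [map_add]; exact add_mem hx' hy'⟩
  zero_mem' := ⟨by rw [map_zero]; exact zero_mem _, by rw [map_zero]; exact zero_mem _⟩
  neg_mem' := by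
    rintro x ⟨hx, hx'⟩
    exact ⟨by rw [map_neg]; exact neg_mem hx, by rw [map_neg]; exact neg_mem hx'⟩

variable {N A}

theorem mem_IntRing {y : LaurentSeries A} :
    y ∈ IntRing N A ↔ toL A y ∈ modularFunctionFieldBar N ∧
      toK A y ∈ modularFunctionFieldFullC (IsLocalRing.ResidueField A) N :=
  Iff.rfl

theorem constA_mem (a : A) : constA A a ∈ IntRing N A := by
  refine ⟨?_, ?_⟩
  · rw [toL_constA]; exact IntermediateField.algebraMap_mem _ _
  · rw [toK_constA]; exact IntermediateField.algebraMap_mem _ _

/-- the integral `j(q^d)` -/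
theorem jqNModC_mem {d : ℕ} [NeZero d] (hd : d ∣ N) : jqNModC A d ∈ IntRing N A := by
  refine ⟨?_, ?_⟩
  · have h1 : toL A (jqNModC A d) = coeffEmb (AlgebraicClosure ℚ) (qExpand ℚ d jq) := by
      rw [toL, coeffMap_jqNModC, coeffEmb, ← jqN, ← jqNModC_rat, coeffMap_jqNModC]
    rw [h1]
    exact coeffEmb_mem_laurentBaseChange _ (jqd_mem_full N hd)
  · rw [toK, coeffMap_jqNModC]
    exact jqModCd_mem_full _ N hd

end Fermat.Agent.S18lib.V
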