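/-
S18lib / V / Lift  (helper4)

Every element of `FRes A N = k(j̄(q^d) : d ∣ N)` is a quotient `ā / b̄` of reductions of integral
modular functions.
-/
import Fermat.Agent.S18lib.V.IntRing

set_option autoImplicit false

noncomputable section

namespace Fermat.Agent.S18lib.V

open AlgebraicCurve ModularCurve HahnSeries

variable {N : ℕ} {A : ValuationSubring (AlgebraicClosure ℚ)}

/-- polynomial expressions in the `j̄(q^d)` lift to integral modular functions -/
theorem exists_toK_eq_of_mem_adjoin {η : LaurentSeries (IsLocalRing.ResidueField A)}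
    (hη : η ∈ Algebra.adjoin (IsLocalRing.ResidueField A)
      (divisorExpansionsC (IsLocalRing.ResidueField A) N)) :
    ∃ a ∈ IntRing N A, toK A a = η := by
  induction hη using Algebra.adjoin_induction with
  | mem x hx =>
    obtain ⟨d, hd0, hd, rfl⟩ := hx
    have := hd0
    refine ⟨jqNModC A d, jqNModC_mem hd, ?_⟩
    rw [toK, coeffMap_jqNModC]
    rfl
  | algebraMap c =>
    obtain ⟨a, rfl⟩ := IsLocalRing.residue_surjective c
    exact ⟨constA A a, constA_mem a, toK_constA a⟩
  | add x y _ _ hx hy =>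
    obtain ⟨a, ha, rfl⟩ := hx
    obtain ⟨b, hb, rfl⟩ := hy
    exact ⟨a + b, add_mem ha hb, map_add _ _ _⟩
  | mul x y _ _ hx hy =>
    obtain ⟨a, ha, rfl⟩ := hx
    obtain ⟨b, hb, rfl⟩ := hy
    exact ⟨a * b, mul_mem ha hb, map_mul _ _ _⟩

/-- every element of `FRes A N` is a quotient of reductions of integral modular functions -/
theorem exists_toK_div_eq {η : LaurentSeries (IsLocalRing.ResidueField A)}
    (hη : η ∈ modularFunctionFieldFullC (IsLocalRing.ResidueField A) N) :
    ∃ a ∈ IntRing N A, ∃ b ∈ IntRing N A, toK A b ≠ 0 ∧ η * toK A b = toK A a := by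
  obtain ⟨r, hr, s, hs, rfl⟩ := IntermediateField.mem_adjoin_iff_div.mp hη
  obtain ⟨a, ha, rfl⟩ := exists_toK_eq_of_mem_adjoin hr
  obtain ⟨b, hb, rfl⟩ := exists_toK_eq_of_mem_adjoin hs
  by_cases hb0 : toK A b = 0
  · refine ⟨0, zero_mem _, 1, one_mem _, ?_, ?_⟩
    · rw [map_one]; exact one_ne_zero
    · rw [hb0, div_zero, zero_mul, map_zero]
  · exact ⟨a, ha, b, hb, hb0, div_mul_cancel₀ _ hb0⟩

end Fermat.Agent.S18lib.V
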