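/-
S18lib / V / Decomp  (helper4)

From `PrincipalGeneratedByIntegral`: every nonzero `f ∈ FBar N` is `c · a / b` with `c ∈ Q̄ˣ` and
`a, b` integral modular functions with nonzero reduction.
-/
import Fermat.Agent.S18lib.V.Lift
import Fermat.Agent.ProgramR.BarField.Degree
import Fermat.Agent.ProgramR.FunctionField.Divisor
import Fermat.Agent.ProgramR.FunctionField.AlgClosed

set_option autoImplicit false
set_option linter.unusedSectionVars false
set_option linter.style.haveILetI false

noncomputable section

namespace Fermat.Agent.S18lib.V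

open AlgebraicCurve ModularCurve HahnSeries IntermediateField
open Fermat.Agent.ProgramR

section General

variable {K F : Type*} [Field K] [Field F] [Algebra K F] [CharZero K] [IsAlgClosed K]

/-- a nonzero function without zeros and poles is a constant -/
theorem exists_algebraMap_eq_of_forall_ord_eq_zero (x : F) [FiniteDimensional K⟮x⟯ F]
    {f : F} (h0 : ∀ v : Place K F, v.ord f = 0) : ∃ c : K, algebraMap K F c = f := by
  by_cases hf : IsAlgebraic K f
  · exact FF.exists_algebraMap_eq_of_isAlgebraic hf
  · exfalso
    have hf' : Transcendental K f := hf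
    haveI := FF.finiteDimensional_adjoin_of_transcendental x hf'
    have hsum := FF.sum_zeros f hf'
    have hempty : (FF.finite_zeros f hf').toFinset = ∅ := by
      ext v
      rw [Set.Finite.mem_toFinset]
      simp [h0 v]
    rw [hempty, Finset.sum_empty] at hsum
    have hpos : 0 < Module.finrank K⟮f⟯ F := Module.finrank_pos
    omega

end General

variable {N : ℕ} [NeZero N] {A : ValuationSubring (AlgebraicClosure ℚ)}

instance hasPrincipalDivisors_FBar :
    HasPrincipalDivisors (AlgebraicClosure ℚ) (FBar N) :=
  FF.hasPrincipalDivisors (BarField.jBar (AlgebraicClosure ℚ) N)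
    (BarField.transcendental_jBar (AlgebraicClosure ℚ) N)

/-- a nonzero element of `FBar N` without zeros and poles is a constant -/
theorem exists_const_of_forall_ord_eq_zero {f : FBar N}
    (h0 : ∀ v : Place (AlgebraicClosure ℚ) (FBar N), v.ord f = 0) :
    ∃ c : AlgebraicClosure ℚ, algebraMap (AlgebraicClosure ℚ) (FBar N) c = f :=
  exists_algebraMap_eq_of_forall_ord_eq_zero (BarField.jBar (AlgebraicClosure ℚ) N) h0

/-- the element of `FBar N` attached to an integral modular function -/
def elemL (a : IntRing N A) : FBar N := ⟨toL A a.1, a.2.1⟩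

/-- the element of `FRes A N` attached to an integral modular function -/
def elemK (a : IntRing N A) : FRes A N := ⟨toK A a.1, a.2.2⟩

@[simp] theorem coe_elemL (a : IntRing N A) :
    ((elemL a : FBar N) : LaurentSeries (AlgebraicClosure ℚ)) = toL A a.1 := rfl

@[simp] theorem coe_elemK (a : IntRing N A) :
    ((elemK a : FRes A N) : LaurentSeries (IsLocalRing.ResidueField A)) = toK A a.1 := rfl

theorem elemL_one : elemL (1 : IntRing N A) = 1 := Subtype.ext (map_one _)
theorem elemK_one : elemK (1 : IntRing N A) = 1 := Subtype.ext (map_one _)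
theorem elemL_zero : elemL (0 : IntRing N A) = 0 := Subtype.ext (map_zero _)
theorem elemK_zero : elemK (0 : IntRing N A) = 0 := Subtype.ext (map_zero _)
theorem elemL_mul (a b : IntRing N A) : elemL (a * b) = elemL a * elemL b :=
  Subtype.ext (map_mul _ _ _)
theorem elemK_mul (a b : IntRing N A) : elemK (a * b) = elemK a * elemK b :=
  Subtype.ext (map_mul _ _ _)
theorem elemL_add (a b : IntRing N A) : elemL (a + b) = elemL a + elemL b :=
  Subtype.ext (map_add _ _ _)
theorem elemK_add (a b : IntRing N A) : elemK (a + b) = elemK a + elemK b :=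
  Subtype.ext (map_add _ _ _)

theorem elemL_injective : Function.Injective (elemL (N := N) (A := A)) := by
  intro a b hab
  apply Subtype.ext
  apply toL_injective
  exact congrArg Subtype.val hab

theorem elemL_ne_zero_of_elemK_ne_zero {a : IntRing N A} (ha : elemK a ≠ 0) : elemL a ≠ 0 := by
  intro h
  apply ha
  have : a = 0 := elemL_injective (by rw [h, elemL_zero])
  rw [this, elemK_zero]

/-- **Decomposition.**  If the principal divisors of `FBar N` are generated by the divisors of
integral modular functions with nonzero reduction, every nonzero `f` is `c · a / b`. -/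
theorem exists_decomp
    (hgen : PrincipalGeneratedByIntegral A (IsLocalRing.residue A) N)
    {f : FBar N} (hf : f ≠ 0) :
    ∃ (c : AlgebraicClosure ℚ) (a b : IntRing N A), c ≠ 0 ∧ elemK a ≠ 0 ∧ elemK b ≠ 0 ∧
      f * elemL b = algebraMap (AlgebraicClosure ℚ) (FBar N) c * elemL a := by
  obtain ⟨D, hD, -⟩ := HasPrincipalDivisors.exists_divisor (K := AlgebraicClosure ℚ) f hf
  have hDprin : D ∈ Divisor.principal (K := AlgebraicClosure ℚ) (F := FBar N) := ⟨f, hf, hD⟩
  have hcl := hgen hDprin
  -- every element of the closure is `div a - div b`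
  have key : ∀ E ∈ AddSubgroup.closure (integralPrincipalDivisors A (IsLocalRing.residue A) N),
      ∃ a b : IntRing N A, elemK a ≠ 0 ∧ elemK b ≠ 0 ∧
        ∀ P : Place (AlgebraicClosure ℚ) (FBar N), E P = P.ord (elemL a) - P.ord (elemL b) := by
    intro E hE
    induction hE using AddSubgroup.closure_induction with
    | mem E hE =>
      obtain ⟨y, hy, hyk, hne, hDy⟩ := hE
      refine ⟨⟨y, hy, hyk⟩, 1, ?_, ?_, fun P => ?_⟩
      · intro h; exact hne (congrArg Subtype.val h)
      · rw [elemK_one]; exact one_ne_zero
      · rw [elemL_one, Place.ord_one, sub_zero]; exact hDy P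
    | zero =>
      refine ⟨1, 1, ?_, ?_, fun P => ?_⟩
      · rw [elemK_one]; exact one_ne_zero
      · rw [elemK_one]; exact one_ne_zero
      · rw [sub_self]; rfl
    | add E E' _ _ hE hE' =>
      obtain ⟨a, b, ha, hb, hab⟩ := hE
      obtain ⟨a', b', ha', hb', hab'⟩ := hE'
      refine ⟨a * a', b * b', ?_, ?_, fun P => ?_⟩
      · rw [elemK_mul]; exact mul_ne_zero ha ha'
      · rw [elemK_mul]; exact mul_ne_zero hb hb'
      · rw [Finsupp.add_apply, hab P, hab' P, elemL_mul, elemL_mul,
          P.ord_mul (elemL_ne_zero_of_elemK_ne_zero ha) (elemL_ne_zero_of_elemK_ne_zero ha'),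
          P.ord_mul (elemL_ne_zero_of_elemK_ne_zero hb) (elemL_ne_zero_of_elemK_ne_zero hb')]
        ring
    | neg E _ hE =>
      obtain ⟨a, b, ha, hb, hab⟩ := hE
      refine ⟨b, a, hb, ha, fun P => ?_⟩
      rw [Finsupp.neg_apply, hab P]
      ring
  obtain ⟨a, b, ha, hb, hab⟩ := key D hcl
  have haL := elemL_ne_zero_of_elemK_ne_zero ha
  have hbL := elemL_ne_zero_of_elemK_ne_zero hb
  -- `f * b / a` has trivial divisor
  have h0 : ∀ P : Place (AlgebraicClosure ℚ) (FBar N), P.ord (f * elemL b * (elemL a)⁻¹) = 0 := by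
    intro P
    rw [P.ord_mul (mul_ne_zero hf hbL) (inv_ne_zero haL), P.ord_mul hf hbL, P.ord_inv, ← hD P,
      hab P]
    ring
  obtain ⟨c, hc⟩ := exists_const_of_forall_ord_eq_zero h0
  refine ⟨c, a, b, ?_, ha, hb, ?_⟩
  · rintro rfl
    rw [map_zero] at hc
    exact mul_ne_zero (mul_ne_zero hf hbL) (inv_ne_zero haL) hc.symm
  · rw [hc, inv_mul_cancel_right₀ haL]

end Fermat.Agent.S18lib.V
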