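/-
S18lib / V / GaussRing  (helper4)

The Gauss valuation ring `O = {a / b : a, b integral modular functions, b̄ ≠ 0}` of `FBar N` and the
reduction map `red : O → FRes A N`, `a / b ↦ ā / b̄`.
-/
import Fermat.Agent.S18lib.V.Decomp

set_option autoImplicit false
set_option linter.unusedSectionVars false
set_option linter.style.haveILetI false

noncomputable section

namespace Fermat.Agent.S18lib.V

open AlgebraicCurve ModularCurve HahnSeries IntermediateField

variable {N : ℕ} [NeZero N] {A : ValuationSubring (AlgebraicClosure ℚ)}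

/-- `x = a / b` with `a, b` integral modular functions and `b̄ ≠ 0` -/
def IsRep (x : FBar N) (a b : IntRing N A) : Prop := elemK b ≠ 0 ∧ x * elemL b = elemL a

theorem IsRep.elemL_ne_zero {x : FBar N} {a b : IntRing N A} (h : IsRep x a b) : elemL b ≠ 0 :=
  elemL_ne_zero_of_elemK_ne_zero h.1

theorem IsRep.eq_div {x : FBar N} {a b : IntRing N A} (h : IsRep x a b) :
    x = elemL a / elemL b := by
  rw [eq_div_iff h.elemL_ne_zero, h.2]

/-- independence of the representation -/
theorem IsRep.indep {x : FBar N} {a b a' b' : IntRing N A} (h : IsRep x a b) (h' : IsRep x a' b') :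
    elemK a * elemK b' = elemK a' * elemK b := by
  have h1 : elemL (a * b') = elemL (a' * b) := by
    rw [elemL_mul, elemL_mul, ← h.2, ← h'.2]; ring
  have h2 := elemL_injective h1
  rw [← elemK_mul, ← elemK_mul, h2]

theorem IsRep.div_eq {x : FBar N} {a b a' b' : IntRing N A} (h : IsRep x a b) (h' : IsRep x a' b') :
    elemK a / elemK b = elemK a' / elemK b' := by
  rw [div_eq_div_iff h.1 h'.1]
  exact h.indep h'

theorem isRep_zero : IsRep (0 : FBar N) (0 : IntRing N A) 1 :=
  ⟨by rw [elemK_one]; exact one_ne_zero, by rw [zero_mul, elemL_zero]⟩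

theorem isRep_one : IsRep (1 : FBar N) (1 : IntRing N A) 1 :=
  ⟨by rw [elemK_one]; exact one_ne_zero, by rw [one_mul]⟩

theorem IsRep.add {x x' : FBar N} {a b a' b' : IntRing N A} (h : IsRep x a b) (h' : IsRep x' a' b') :
    IsRep (x + x') (a * b' + a' * b) (b * b') := by
  refine ⟨by rw [elemK_mul]; exact mul_ne_zero h.1 h'.1, ?_⟩
  rw [elemL_add, elemL_mul, elemL_mul, elemL_mul, ← h.2, ← h'.2]
  ring

theorem IsRep.mul {x x' : FBar N} {a b a' b' : IntRing N A} (h : IsRep x a b) (h' : IsRep x' a' b') :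
    IsRep (x * x') (a * a') (b * b') := by
  refine ⟨by rw [elemK_mul]; exact mul_ne_zero h.1 h'.1, ?_⟩
  rw [elemL_mul, elemL_mul, ← h.2, ← h'.2]
  ring

theorem IsRep.neg {x : FBar N} {a b : IntRing N A} (h : IsRep x a b) : IsRep (-x) (-a) b := by
  refine ⟨h.1, ?_⟩
  have : elemL (-a) = -elemL a := Subtype.ext (map_neg _ _)
  rw [this, neg_mul, h.2]

theorem IsRep.inv {x : FBar N} {a b : IntRing N A} (h : IsRep x a b) (ha : elemK a ≠ 0) :
    IsRep x⁻¹ b a := by
  refine ⟨ha, ?_⟩
  have haL := elemL_ne_zero_of_elemK_ne_zero ha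
  have hbL := h.elemL_ne_zero
  have hx : x ≠ 0 := by
    rintro rfl
    have h2 := h.2
    rw [zero_mul] at h2
    exact haL h2.symm
  rw [← h.2]
  field_simp

/-- the constant integral modular functions -/
def constI (c : A) : IntRing N A := ⟨constA A c, constA_mem c⟩

theorem elemL_constI (c : A) :
    elemL (constI (N := N) c) = algebraMap (AlgebraicClosure ℚ) (FBar N) (c : AlgebraicClosure ℚ) :=
  Subtype.ext (toL_constA c)

theorem elemK_constI (c : A) :
    elemK (constI (N := N) c) =
      algebraMap (IsLocalRing.ResidueField A) (FRes A N) (IsLocalRing.residue A c) :=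
  Subtype.ext (toK_constA c)

variable (N A) in
/-- the underlying subring of the Gauss ring -/
def gaussSubring : Subring (FBar N) where
  carrier := {x | ∃ a b : IntRing N A, IsRep x a b}
  mul_mem' := by
    rintro x y ⟨a, b, h⟩ ⟨a', b', h'⟩
    exact ⟨_, _, h.mul h'⟩
  one_mem' := ⟨_, _, isRep_one⟩
  add_mem' := by
    rintro x y ⟨a, b, h⟩ ⟨a', b', h'⟩
    exact ⟨_, _, h.add h'⟩
  zero_mem' := ⟨_, _, isRep_zero⟩
  neg_mem' := by
    rintro x ⟨a, b, h⟩
    exact ⟨_, _, h.neg⟩

theorem mem_gaussSubring {x : FBar N} :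
    x ∈ gaussSubring N A ↔ ∃ a b : IntRing N A, IsRep x a b := Iff.rfl

/-- a quotient of integral modular functions with nonzero reductions is a unit of the Gauss ring,
and every nonzero function is a constant times such a quotient -/
theorem mem_or_inv_mem_gaussSubring
    (hgen : PrincipalGeneratedByIntegral A (IsLocalRing.residue A) N) (x : FBar N) :
    x ∈ gaussSubring N A ∨ x⁻¹ ∈ gaussSubring N A := by
  by_cases hx : x = 0
  · left; rw [hx]; exact zero_mem _
  obtain ⟨c, a, b, hc, ha, hb, hxab⟩ := exists_decomp hgen hx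
  rcases A.mem_or_inv_mem c with hcA | hcA
  · left
    refine ⟨constI ⟨c, hcA⟩ * a, b, hb, ?_⟩
    rw [elemL_mul, elemL_constI, hxab]
  · right
    refine ⟨constI ⟨c⁻¹, hcA⟩ * b, a, ha, ?_⟩
    rw [elemL_mul, elemL_constI]
    have hbL := elemL_ne_zero_of_elemK_ne_zero hb
    have hcF : algebraMap (AlgebraicClosure ℚ) (FBar N) c ≠ 0 := by
      rw [Ne, map_eq_zero_iff _ (algebraMap (AlgebraicClosure ℚ) (FBar N)).injective]
      exact hc
    have h1 : elemL a = (algebraMap (AlgebraicClosure ℚ) (FBar N) c)⁻¹ * (x * elemL b) := by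
      rw [hxab, inv_mul_cancel_left₀ hcF]
    rw [h1, map_inv₀]
    field_simp

variable (N A) in
/-- the Gauss valuation ring -/
def gaussRing (hgen : PrincipalGeneratedByIntegral A (IsLocalRing.residue A) N) :
    ValuationSubring (FBar N) :=
  { gaussSubring N A with
    mem_or_inv_mem' := mem_or_inv_mem_gaussSubring hgen }

theorem mem_gaussRing {hgen : PrincipalGeneratedByIntegral A (IsLocalRing.residue A) N}
    {x : FBar N} : x ∈ gaussRing N A hgen ↔ ∃ a b : IntRing N A, IsRep x a b := Iff.rfl

/-- the reduction of an element of the Gauss ring -/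
def redFun (x : FBar N) (hx : ∃ a b : IntRing N A, IsRep x a b) : FRes A N :=
  elemK hx.choose / elemK hx.choose_spec.choose

theorem redFun_eq {x : FBar N} (hx : ∃ a b : IntRing N A, IsRep x a b) {a b : IntRing N A}
    (h : IsRep x a b) : redFun x hx = elemK a / elemK b :=
  IsRep.div_eq hx.choose_spec.choose_spec h

variable (N A) in
/-- the reduction map of the Gauss ring -/
def gaussRed (hgen : PrincipalGeneratedByIntegral A (IsLocalRing.residue A) N) :
    gaussRing N A hgen →+* FRes A N where
  toFun x := redFun x.1 x.2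
  map_one' := by
    refine (redFun_eq (x := (1 : FBar N)) ⟨_, _, isRep_one⟩ isRep_one).trans ?_
    rw [elemK_one, div_one]
  map_mul' := by
    rintro ⟨x, a, b, h⟩ ⟨y, a', b', h'⟩
    rw [redFun_eq _ h, redFun_eq _ h']
    have := redFun_eq (x := x * y) ⟨_, _, h.mul h'⟩ (h.mul h')
    refine this.trans ?_
    rw [elemK_mul, elemK_mul, mul_div_mul_comm]
  map_zero' := by
    refine (redFun_eq (x := (0 : FBar N)) ⟨_, _, isRep_zero⟩ isRep_zero).trans ?_
    rw [elemK_zero, zero_div]
  map_add' := by
    rintro ⟨x, a, b, h⟩ ⟨y, a', b', h'⟩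
    rw [redFun_eq _ h, redFun_eq _ h']
    have := redFun_eq (x := x + y) ⟨_, _, h.add h'⟩ (h.add h')
    refine this.trans ?_
    rw [elemK_add, elemK_mul, elemK_mul, elemK_mul, div_add_div _ _ h.1 h'.1, mul_comm (elemK b) (elemK a')]

theorem gaussRed_apply {hgen : PrincipalGeneratedByIntegral A (IsLocalRing.residue A) N}
    {x : FBar N} (hx : x ∈ gaussRing N A hgen) {a b : IntRing N A} (h : IsRep x a b) :
    gaussRed N A hgen ⟨x, hx⟩ = elemK a / elemK b :=
  redFun_eq hx h

end Fermat.Agent.S18lib.V
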