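/-
S18lib / V / Datum  (helper4)

The reduction datum attached to `h : ReductionInputsModL A N`:
`O = {a / b}` (Gauss ring), `red (a / b) = ā / b̄`, `r = placeReductionModL h`.
Implements `V.datum`, `V.datum_r`, `V.datum_red_coeffMap` of the interface (Stub_Modular).
-/
import Fermat.Agent.S18lib.V.GaussRing

set_option autoImplicit false
set_option linter.unusedSectionVars false
set_option linter.unusedVariables false
set_option linter.style.haveILetI false

noncomputable section

namespace Fermat.Agent.S18lib.V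

open AlgebraicCurve ModularCurve HahnSeries IntermediateField

variable {N : ℕ} [NeZero N] {A : ValuationSubring (AlgebraicClosure ℚ)}

theorem toK_ne_zero_of_elemK_ne_zero {a : IntRing N A} (ha : elemK a ≠ 0) : toK A a.1 ≠ 0 :=
  fun h => ha (Subtype.ext h)

/-- constants of the Gauss ring are the elements of `A` -/
theorem algebraMap_mem_gaussSubring_iff (c : AlgebraicClosure ℚ) :
    algebraMap (AlgebraicClosure ℚ) (FBar N) c ∈ gaussSubring N A ↔ c ∈ A := by
  constructor
  · rintro ⟨a, b, hb, hab⟩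
    obtain ⟨n, hn⟩ := exists_isUnit_coeff (toK_ne_zero_of_elemK_ne_zero hb)
    have h1 := congrArg (fun z : FBar N => (z : LaurentSeries (AlgebraicClosure ℚ)).coeff n) hab
    simp only [MulMemClass.coe_mul, coe_elemL] at h1
    have h2 : ((algebraMap (AlgebraicClosure ℚ) (FBar N) c : FBar N) :
        LaurentSeries (AlgebraicClosure ℚ)) = HahnSeries.single 0 c := by
      rw [← algebraMap_laurentSeries_eq_single]
      rfl
    rw [h2, HahnSeries.coeff_single_zero_mul, toL_coeff, toL_coeff] at h1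
    obtain ⟨u, hu⟩ := hn
    have h3 : c = ((a.1.coeff n * (↑u⁻¹ : A) : A) : AlgebraicClosure ℚ) := by
      have hunit : ((b.1.coeff n : A) : AlgebraicClosure ℚ) * ((↑u⁻¹ : A) : AlgebraicClosure ℚ) = 1 := by
        rw [← hu]
        exact_mod_cast congrArg (Subtype.val) (u.mul_inv)
      push_cast
      rw [← h1, mul_assoc, hunit, mul_one]
    rw [h3]
    exact (a.1.coeff n * (↑u⁻¹ : A)).2
  · intro hc
    refine ⟨constI ⟨c, hc⟩, 1, ?_, ?_⟩
    · rw [elemK_one]; exact one_ne_zero
    · rw [elemL_one, mul_one, elemL_constI]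

/-- surjectivity of the reduction -/
theorem exists_isRep_of_FRes (η : FRes A N) :
    ∃ (x : FBar N) (a b : IntRing N A), IsRep x a b ∧ elemK a / elemK b = η := by
  obtain ⟨a, ha, b, hb, hb0, hab⟩ := exists_toK_div_eq η.2
  have hbK : elemK (⟨b, hb⟩ : IntRing N A) ≠ 0 := fun h => hb0 (congrArg Subtype.val h)
  have hbL := elemL_ne_zero_of_elemK_ne_zero hbK
  refine ⟨elemL ⟨a, ha⟩ / elemL ⟨b, hb⟩, ⟨a, ha⟩, ⟨b, hb⟩, ⟨hbK, div_mul_cancel₀ _ hbL⟩, ?_⟩
  rw [div_eq_iff hbK]
  exact (Subtype.ext hab).symm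

/-- divisor of a quotient -/
theorem mapDomain_div_aux {r : Place (AlgebraicClosure ℚ) (FBar N) →
      Place (IsLocalRing.ResidueField A) (FRes A N)}
    (hr : IsPlaceReductionModL A N r) {x : FBar N} {a b : IntRing N A} (h : IsRep x a b)
    (ha : elemK a ≠ 0) (D : Divisor (AlgebraicClosure ℚ) (FBar N)) (hD : ∀ P, D P = P.ord x)
    (Q : Place (IsLocalRing.ResidueField A) (FRes A N)) :
    Finsupp.mapDomain r D Q = Q.ord (elemK a / elemK b) := by
  have haL := elemL_ne_zero_of_elemK_ne_zero ha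
  have hbL := h.elemL_ne_zero
  obtain ⟨Da, hDa, -⟩ := HasPrincipalDivisors.exists_divisor (K := AlgebraicClosure ℚ) _ haL
  obtain ⟨Db, hDb, -⟩ := HasPrincipalDivisors.exists_divisor (K := AlgebraicClosure ℚ) _ hbL
  have hDab : D = Da - Db := by
    ext P
    rw [Finsupp.sub_apply, hD P, hDa P, hDb P, h.eq_div, div_eq_mul_inv,
      P.ord_mul haL (inv_ne_zero hbL), P.ord_inv]
    ring
  have h1 := hr.2 a.1 a.2.1 a.2.2 (toK_ne_zero_of_elemK_ne_zero ha) Da hDa Q
  have h2 := hr.2 b.1 b.2.1 b.2.2 (toK_ne_zero_of_elemK_ne_zero h.1) Db hDb Q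
  rw [hDab, Finsupp.mapDomain_sub, Finsupp.sub_apply, h1, h2, div_eq_mul_inv,
    Q.ord_mul ha (inv_ne_zero h.1), Q.ord_inv]
  rfl

variable (N A)
variable {ℓ : ℕ} [Fact ℓ.Prime]

/-- The reduction datum attached to `h : ReductionInputsModL A N`. -/
def datum (hℓN : ¬ ℓ ∣ N) (hA : A.LiesOverPrime ℓ) (h : ReductionInputsModL A N) :
    ModDatum N A where
  O := gaussRing N A h.choose_spec.2
  algebraMap_mem_iff := algebraMap_mem_gaussSubring_iff
  red := gaussRed N A h.choose_spec.2
  red_surjective := by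
    intro η
    obtain ⟨x, a, b, hx, hη⟩ := exists_isRep_of_FRes η
    exact ⟨⟨x, a, b, hx⟩, (gaussRed_apply _ hx).trans hη⟩
  red_algebraMap := by
    intro a ha
    have hrep : IsRep (algebraMap (AlgebraicClosure ℚ) (FBar N) (a : AlgebraicClosure ℚ))
        (constI (N := N) a) 1 :=
      ⟨by rw [elemK_one]; exact one_ne_zero, by rw [elemL_one, mul_one, elemL_constI]⟩
    rw [gaussRed_apply ha hrep, elemK_one, div_one, elemK_constI]
  exists_const_mul_isUnit := by
    intro f hf
    obtain ⟨c, a, b, hc, ha, hb, hfab⟩ := exists_decomp h.choose_spec.2 hf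
    have haL := elemL_ne_zero_of_elemK_ne_zero ha
    have hbL := elemL_ne_zero_of_elemK_ne_zero hb
    have hrep : IsRep (elemL a / elemL b) a b := ⟨hb, div_mul_cancel₀ _ hbL⟩
    have hrep' : IsRep (elemL a / elemL b)⁻¹ b a := hrep.inv ha
    have hne : elemL a / elemL b ≠ 0 := div_ne_zero haL hbL
    refine ⟨c⁻¹, inv_ne_zero hc,
      ⟨⟨_, a, b, hrep⟩, ⟨_, b, a, hrep'⟩, Subtype.ext (mul_inv_cancel₀ hne),
        Subtype.ext (inv_mul_cancel₀ hne)⟩, ?_⟩
    have hcF : algebraMap (AlgebraicClosure ℚ) (FBar N) c ≠ 0 := by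
      rw [Ne, map_eq_zero_iff _ (algebraMap (AlgebraicClosure ℚ) (FBar N)).injective]
      exact hc
    show algebraMap (AlgebraicClosure ℚ) (FBar N) c⁻¹ * f = elemL a / elemL b
    rw [eq_div_iff hbL, mul_assoc, hfab, map_inv₀, inv_mul_cancel_left₀ hcF]
  r := placeReductionModL h
  deg_r := (isPlaceReductionModL_placeReductionModL h).1
  mapDomain_div := by
    rintro ⟨y, a, b, hy⟩ hred D hD Q
    have hval : gaussRed N A h.choose_spec.2 ⟨y, a, b, hy⟩ = elemK a / elemK b :=
      gaussRed_apply _ hy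
    have ha : elemK a ≠ 0 := by
      intro h0
      apply hred
      rw [hval, h0, zero_div]
    rw [hval]
    exact mapDomain_div_aux (isPlaceReductionModL_placeReductionModL h) hy ha D hD Q

theorem datum_r (hℓN : ¬ ℓ ∣ N) (hA : A.LiesOverPrime ℓ) (h : ReductionInputsModL A N) :
    (datum N A hℓN hA h).r = placeReductionModL h := rfl

theorem mem_datum_O (hℓN : ¬ ℓ ∣ N) (hA : A.LiesOverPrime ℓ) (h : ReductionInputsModL A N)
    {x : FBar N} : x ∈ (datum N A hℓN hA h).O ↔ ∃ a b : IntRing N A, IsRep x a b := Iff.rfl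

theorem datum_red_apply (hℓN : ¬ ℓ ∣ N) (hA : A.LiesOverPrime ℓ) (h : ReductionInputsModL A N)
    {x : FBar N} (hx : x ∈ (datum N A hℓN hA h).O) {a b : IntRing N A} (hab : IsRep x a b) :
    (datum N A hℓN hA h).red ⟨x, hx⟩ = elemK a / elemK b :=
  gaussRed_apply hx hab

/-- description of `O` and `red` on integral Laurent series -/
theorem datum_red_coeffMap (hℓN : ¬ ℓ ∣ N) (hA : A.LiesOverPrime ℓ) (h : ReductionInputsModL A N)
    (y : LaurentSeries A) (hy : coeffMap A.subtype y ∈ modularFunctionFieldBar N)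
    (hyk : coeffMap (IsLocalRing.residue A) y ∈
      modularFunctionFieldFullC (IsLocalRing.ResidueField A) N) :
    ∃ hO : (⟨coeffMap A.subtype y, hy⟩ : FBar N) ∈ (datum N A hℓN hA h).O,
      (datum N A hℓN hA h).red ⟨(⟨coeffMap A.subtype y, hy⟩ : FBar N), hO⟩
        = (⟨coeffMap (IsLocalRing.residue A) y, hyk⟩ : FRes A N) := by
  have hrep : IsRep (⟨coeffMap A.subtype y, hy⟩ : FBar N) (⟨y, hy, hyk⟩ : IntRing N A) 1 :=
    ⟨by rw [elemK_one]; exact one_ne_zero, by rw [elemL_one, mul_one]; rfl⟩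
  refine ⟨⟨_, _, hrep⟩, ?_⟩
  rw [datum_red_apply N A hℓN hA h _ hrep, elemK_one, div_one]
  rfl

end Fermat.Agent.S18lib.V
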