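/-
S18lib / V / FrameMonomials  (helper7)

(K1) `ψ(N)` monomials in the `j(q^d)`, `d ∣ N`, linearly independent over `(ZMod ℓ)[j]`
(the first half of the S28 assembly, re-run with the S28 bricks), and
(K2) their independence over `k[j]` for every field `k` of characteristic `ℓ`
(linear disjointness of `k` and `(ZMod ℓ)((q))` inside `k((q))`).
-/
import Fermat.Agent.S28lib.Assembly
import Fermat.Agent.S28lib.JIntegral
import Fermat.Agent.S28lib.PhiRoot
import Fermat.Agent.S28lib.PhiP
import Fermat.Agent.S28lib.UnitB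
import Fermat.Agent.S28lib.Theta
import Fermat.Agent.S28lib.Chain
import Fermat.Agent.ProgramR.BarField.DegreeUpper

set_option autoImplicit false

noncomputable section

namespace Fermat.Agent.S18lib.V

open ModularCurve Fermat.Agent.S28lib Polynomial

/-- **(K1)** `ψ(N)` monomials in the `j(q^d)`, `d ∣ N`, independent over `(ZMod ℓ)[j]`. -/
theorem exists_independent_monomials_zmod (N : ℕ) [NeZero N] (ℓ : ℕ) [Fact ℓ.Prime]
    (hℓN : ¬ ℓ ∣ N) :
    ∃ x : Fin (dedekindPsi N) → MvPolynomial ℕ ℤ, (∀ i, ∀ d ∈ (x i).vars, d ∣ N) ∧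
      ∀ P : Fin (dedekindPsi N) → Polynomial (ZMod ℓ),
        ∑ i, evalJ (ZMod ℓ) (jqModC (ZMod ℓ)) (P i) * evalDiv (ZMod ℓ) (x i) = 0 →
          ∀ i, P i = 0 := by
  classical
  obtain ⟨k, hk1, hk2, hk3, ⟨ι⟩⟩ := exists_residue_field ℓ
  have hNk : (N : k) ≠ 0 := natCast_ne_zero_of_not_dvd ℓ k hℓN
  have hpk : ∀ p : ℕ, p ∣ N → (p : k) ≠ 0 := fun p hp =>
    natCast_ne_zero_of_not_dvd ℓ k (fun h => hℓN (h.trans hp))
  have hΦ : ∀ (p : ℕ) [NeZero p], p.Prime → p ∣ N → ModPolyData k p := by
    intro p _ hp hpN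
    haveI : Fact p.Prime := ⟨hp⟩
    exact modPolyData_of_ringHom p ι (hpk p hpN)
  have hU : ∀ (p : ℕ) [NeZero p], p.Prime → p ∣ N → UnitData k p := by
    intro p _ hp hpN
    haveI : Fact p.Prime := ⟨hp⟩
    have h1 := nuQ_integral p ι (hpk p hpN)
    have h2 := nuQ_rational p (hpk p hpN) (hΦ p hp hpN)
    exact
      { Ψ := h1.choose
        monic := h1.choose_spec.1
        root := h1.choose_spec.2
        A := h2.choose
        B := h2.choose_spec.choose
        den_ne := h2.choose_spec.choose_spec.1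
        expr := h2.choose_spec.choose_spec.2 }
  obtain ⟨x, hx, hind⟩ := exists_independent_monomials k N hNk hΦ hU
  exact ⟨x, hx, indep_zmod_of_indep ℓ k x hind⟩

/-- Linear independence over `K[j]` is preserved by mapping the coefficients along a field
embedding `K → L` (field-generic version of `ProgramR.BarField.poly_independent_coeffMap`). -/
theorem poly_independent_coeffMap_gen {K L : Type*} [Field K] [Field L] (e : K →+* L) {n : ℕ}
    (jK : LaurentSeries K) (x : Fin n → LaurentSeries K)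
    (hind : ∀ p : Fin n → K[X], ∑ i, aeval jK (p i) * x i = 0 → ∀ i, p i = 0) :
    ∀ g : Fin n → L[X], ∑ i, aeval (coeffMap e jK) (g i) * coeffMap e (x i) = 0 →
      ∀ i, g i = 0 := by
  apply Fermat.Agent.ProgramR.BarField.poly_of_linearIndependent_powFamily
  intro D
  have h1 := Fermat.Agent.ProgramR.BarField.linearIndependent_powFamily_of_poly jK x hind D
  have h2 := Fermat.Agent.ProgramR.BarField.linearIndependent_coeffMap_alg e
    (Fermat.Agent.ProgramR.BarField.powFamily jK x D) h1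
  have h3 : (fun k ↦ coeffMap e (Fermat.Agent.ProgramR.BarField.powFamily jK x D k)) =
      Fermat.Agent.ProgramR.BarField.powFamily (coeffMap e jK) (fun i ↦ coeffMap e (x i)) D := by
    funext ik
    simp [Fermat.Agent.ProgramR.BarField.powFamily, map_mul, map_pow]
  rw [h3] at h2
  exact h2

/-- **(K2)** the monomials of (K1) are independent over `k[j]` for every field `k` of
characteristic `ℓ`. -/
theorem exists_independent_monomials_charP (N : ℕ) [NeZero N] (ℓ : ℕ) [Fact ℓ.Prime]
    (hℓN : ¬ ℓ ∣ N) (k : Type*) [Field k] [CharP k ℓ] :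
    ∃ x : Fin (dedekindPsi N) → MvPolynomial ℕ ℤ, (∀ i, ∀ d ∈ (x i).vars, d ∣ N) ∧
      ∀ P : Fin (dedekindPsi N) → Polynomial k,
        ∑ i, evalJ k (jqModC k) (P i) * evalDiv k (x i) = 0 → ∀ i, P i = 0 := by
  obtain ⟨x, hx, hind⟩ := exists_independent_monomials_zmod N ℓ hℓN
  refine ⟨x, hx, ?_⟩
  have h := poly_independent_coeffMap_gen (ZMod.castHom (dvd_refl ℓ) k) (jqModC (ZMod ℓ))
    (fun i => evalDiv (ZMod ℓ) (x i)) hind
  intro P hP
  refine h P ?_
  rw [← hP]
  refine Finset.sum_congr rfl fun i _ => ?_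
  rw [coeffMap_evalDiv, coeffMap_jqModC]
  rfl

end Fermat.Agent.S18lib.V
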