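/-
S18lib / V / Frame  (helper7)

**(V-frame)** the modular reduction datum `V.datum` has orthonormal bases:
`y = j`, `θ_i = ` the `ψ(N)` monomials in the `j(q^d)` of `FrameMonomials` form a frame family.
-/
import Fermat.Agent.S18lib.V.FrameMonomials
import Fermat.Agent.S18lib.V.Datum
import Fermat.Agent.S18lib.Frame.Family
import Fermat.Agent.ProgramR.BarField.Degree

set_option autoImplicit false

noncomputable section

namespace Fermat.Agent.S18lib.V

open ModularCurve Fermat.Agent.S28lib Polynomial AlgebraicCurve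

/-! ### Generalities -/

/-- `evalDiv R x` lies in every subring containing the `j(q^d)` for the variables `d` of `x`. -/
theorem evalDiv_mem_subring {R : Type*} [CommRing R] (S : Subring (LaurentSeries R))
    (x : MvPolynomial ℕ ℤ) (h : ∀ d ∈ x.vars, jAt R d ∈ S) : evalDiv R x ∈ S := by
  rw [evalDiv, MvPolynomial.coe_eval₂Hom, MvPolynomial.eval₂_eq]
  refine S.sum_mem fun m hm => S.mul_mem ?_ (S.prod_mem fun d hd => S.pow_mem (h d ?_) _)
  · rw [eq_intCast]; exact intCast_mem S _
  · exact (MvPolynomial.mem_vars_iff_mem_support d).mpr ⟨m, hm, hd⟩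

/-- independence over `k[j]` in polynomial form ⇒ linear independence of all `j^a x_i`. -/
theorem linearIndependent_monomials_of_poly {R B : Type*} [CommRing R] [CommRing B] [Algebra R B]
    {n : ℕ} (j : B) (x : Fin n → B)
    (hind : ∀ p : Fin n → R[X], ∑ i, aeval j (p i) * x i = 0 → ∀ i, p i = 0) :
    LinearIndependent R (fun m : ℕ × Fin n => j ^ m.1 * x m.2) := by
  classical
  rw [linearIndependent_iff_finset_linearIndependent]
  intro s
  set D := s.sup (fun m => m.1) + 1 with hD
  have hlt : ∀ m : s, (m : ℕ × Fin n).1 < D := fun m =>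
    Nat.lt_succ_of_le (Finset.le_sup (f := fun m : ℕ × Fin n => m.1) m.2)
  let g : s → Fin n × Fin D := fun m => ((m : ℕ × Fin n).2, ⟨(m : ℕ × Fin n).1, hlt m⟩)
  have hg : Function.Injective g := by
    intro m m' hmm
    simp only [g, Prod.mk.injEq, Fin.mk.injEq] at hmm
    exact Subtype.ext (Prod.ext hmm.2 hmm.1)
  have h1 := Fermat.Agent.ProgramR.BarField.linearIndependent_powFamily_of_poly j x hind D
  exact h1.comp g hg

/-- the monomials `y^a θ_i` are orthonormal as soon as `y, θ_i ∈ O` and their reductions are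
independent (first half of `Frame.IsFrameFamily`, needed before `exists_repr` is available). -/
theorem isOrthonormal_monomialsFam_of {L : Type*} [Field L] {A : ValuationSubring L}
    {F : Type*} [Field F] [Algebra L F]
    {Fk : Type*} [Field Fk] [Algebra (IsLocalRing.ResidueField A) Fk]
    (D : RedDatum A F Fk) {y : F} {n : ℕ} {θ : Fin n → F}
    (y_mem : y ∈ D.O) (θ_mem : ∀ i, θ i ∈ D.O)
    (red_indep : LinearIndependent (IsLocalRing.ResidueField A)
      (fun m : ℕ × Fin n => D.redF y ^ m.1 * D.redF (θ m.2))) (t : ℕ) :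
    D.IsOrthonormal (Frame.monomialsFam y θ t) := by
  refine ⟨fun m => D.O.mul_mem _ _ (D.O.pow_mem y_mem _) (θ_mem _), ?_⟩
  have hinj : Function.Injective (fun m : Fin (t + 1) × Fin n => (((m.1 : ℕ), m.2) : ℕ × Fin n)) := by
    rintro ⟨a, i⟩ ⟨a', i'⟩ hh
    simp only [Prod.mk.injEq] at hh
    exact Prod.ext (Fin.ext hh.1) hh.2
  have hcomp := red_indep.comp _ hinj
  have heq : (fun m : Fin (t + 1) × Fin n => D.redF (Frame.monomialsFam y θ t m))
      = (fun m : ℕ × Fin n => D.redF y ^ m.1 * D.redF (θ m.2)) ∘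
        (fun m : Fin (t + 1) × Fin n => (((m.1 : ℕ), m.2) : ℕ × Fin n)) := by
    funext m
    simp only [Frame.monomialsFam, Function.comp_apply]
    rw [D.redF_mul (D.O.pow_mem y_mem _) (θ_mem _), D.redF_pow y_mem]
  rw [heq]
  exact hcomp

/-! ### The residue field has characteristic `ℓ` -/

theorem charP_residueField (A : ValuationSubring (AlgebraicClosure ℚ)) {ℓ : ℕ} [Fact ℓ.Prime]
    (hA : A.LiesOverPrime ℓ) : CharP (IsLocalRing.ResidueField A) ℓ := by
  have h0 : ((ℓ : ℕ) : IsLocalRing.ResidueField A) = 0 := by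
    have hmem : ((ℓ : ℕ) : A) ∈ IsLocalRing.maximalIdeal A := by
      rw [← ValuationSubring.coe_mem_nonunits_iff]
      have : ((((ℓ : ℕ) : A) : A) : AlgebraicClosure ℚ) = ((ℓ : ℕ) : AlgebraicClosure ℚ) := by
        simp
      rw [this]
      exact hA
    have := (IsLocalRing.residue_eq_zero_iff _).mpr hmem
    rwa [map_natCast] at this
  obtain ⟨p, hp⟩ := CharP.exists (IsLocalRing.ResidueField A)
  have hdvd : p ∣ ℓ := (CharP.cast_eq_zero_iff (IsLocalRing.ResidueField A) p ℓ).mp h0
  have hp1 : p ≠ 1 := CharP.char_ne_one (IsLocalRing.ResidueField A) p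
  have : p = ℓ := ((Nat.dvd_prime (Fact.out : ℓ.Prime)).mp hdvd).resolve_left hp1
  exact this ▸ hp

/-! ### The frame of the modular datum -/

section Main

variable (N : ℕ) [NeZero N] (A : ValuationSubring (AlgebraicClosure ℚ)) {ℓ : ℕ} [Fact ℓ.Prime]

local notation "Qb" => AlgebraicClosure ℚ
local notation "kA" => IsLocalRing.ResidueField A

/-- the integral monomials -/
theorem evalDiv_mem_IntRing (x : MvPolynomial ℕ ℤ) (hx : ∀ d ∈ x.vars, d ∣ N) :
    evalDiv A x ∈ IntRing N A := by
  refine evalDiv_mem_subring _ _ fun d hd => ?_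
  have hdN := hx d hd
  have : NeZero d := ⟨ne_zero_of_dvd_ne_zero (NeZero.ne N) hdN⟩
  rw [jAt_of_neZero]
  exact jqNModC_mem hdN

theorem jqModC_mem_IntRing : jqModC A ∈ IntRing N A := by
  have := jqNModC_mem (N := N) (A := A) (one_dvd N)
  rwa [jqNModC_one] at this

/-- **(V-frame)**: the modular reduction datum has orthonormal bases. -/
theorem datum_hasOrthonormalBases (hℓN : ¬ ℓ ∣ N) (hA : A.LiesOverPrime ℓ)
    (h : ReductionInputsModL A N) : (datum N A hℓN hA h).HasOrthonormalBases := by
  classical
  have := charP_residueField A hA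
  obtain ⟨x, hx, hind⟩ := exists_independent_monomials_charP N ℓ hℓN kA
  set D := datum N A hℓN hA h with hD
  have hxmem : ∀ i, evalDiv A (x i) ∈ IntRing N A := fun i => evalDiv_mem_IntRing N A (x i) (hx i)
  have hjmem : jqModC A ∈ IntRing N A := jqModC_mem_IntRing N A
  -- the frame
  let θ : Fin (dedekindPsi N) → FBar N := fun i => ⟨toL A (evalDiv A (x i)), (hxmem i).1⟩
  let y : FBar N := ⟨toL A (jqModC A), hjmem.1⟩
  have hθ := fun i => datum_red_coeffMap N A hℓN hA h (evalDiv A (x i)) (hxmem i).1 (hxmem i).2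
  have hy := datum_red_coeffMap N A hℓN hA h (jqModC A) hjmem.1 hjmem.2
  have θ_mem : ∀ i, θ i ∈ D.O := fun i => (hθ i).choose
  have y_mem : y ∈ D.O := hy.choose
  -- reductions
  have hredθ : ∀ i, ((D.redF (θ i) : FRes A N) : LaurentSeries kA) = evalDiv kA (x i) := by
    intro i
    have h1 : D.red ⟨θ i, θ_mem i⟩ =
        (⟨coeffMap (IsLocalRing.residue A) (evalDiv A (x i)), (hxmem i).2⟩ : FRes A N) :=
      (hθ i).choose_spec
    rw [D.redF_of_mem (θ_mem i), h1]
    exact coeffMap_evalDiv _ _
  have hredy : ((D.redF y : FRes A N) : LaurentSeries kA) = jqModC kA := by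
    have h1 : D.red ⟨y, y_mem⟩ =
        (⟨coeffMap (IsLocalRing.residue A) (jqModC A), hjmem.2⟩ : FRes A N) := hy.choose_spec
    rw [D.redF_of_mem y_mem, h1]
    exact coeffMap_jqModC _
  -- independence of the reductions
  have red_indep : LinearIndependent kA
      (fun m : ℕ × Fin (dedekindPsi N) => D.redF y ^ m.1 * D.redF (θ m.2)) := by
    have hpoly : ∀ p : Fin (dedekindPsi N) → kA[X],
        ∑ i, aeval (jqModC kA) (p i) * evalDiv kA (x i) = 0 → ∀ i, p i = 0 :=
      fun p hp => hind p hp
    have h1 := linearIndependent_monomials_of_poly (R := kA) (jqModC kA)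
      (fun i => evalDiv kA (x i)) hpoly
    refine @LinearIndependent.of_comp _ kA (FRes A N) (LaurentSeries kA) _ _ _ _ _
      Algebra.toModule (IntermediateField.val (modularFunctionFieldFullC kA N)).toLinearMap ?_
    have heq : (⇑(IntermediateField.val (modularFunctionFieldFullC kA N)).toLinearMap ∘
        fun m : ℕ × Fin (dedekindPsi N) => D.redF y ^ m.1 * D.redF (θ m.2)) =
        fun m : ℕ × Fin (dedekindPsi N) => jqModC kA ^ m.1 * evalDiv kA (x m.2) := by
      funext m
      simp only [Function.comp_apply, AlgHom.toLinearMap_apply, IntermediateField.coe_val,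
        MulMemClass.coe_mul, SubmonoidClass.coe_pow]
      rw [hredy, hredθ]
    rw [heq]
    exact h1
  -- orthonormality of the monomials, hence independence of the `θ i` over `L[y]`
  have horth := fun t => isOrthonormal_monomialsFam_of D y_mem θ_mem red_indep t
  have hθind : ∀ p : Fin (dedekindPsi N) → Qb[X],
      ∑ i, aeval y (p i) * θ i = 0 → ∀ i, p i = 0 := by
    apply Fermat.Agent.ProgramR.BarField.poly_of_linearIndependent_powFamily
    intro Dg
    cases Dg with
    | zero =>
      have : IsEmpty (Fin (dedekindPsi N) × Fin 0) := ⟨fun ik => ik.2.elim0⟩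
      exact linearIndependent_empty_type
    | succ t =>
      have h1 := (horth t).linearIndependent
      have hinj : Function.Injective
          (fun ik : Fin (dedekindPsi N) × Fin (t + 1) => ((ik.2, ik.1) : Fin (t + 1) × Fin (dedekindPsi N))) := by
        rintro ⟨a, b⟩ ⟨a', b'⟩ hh
        simp only [Prod.mk.injEq] at hh
        exact Prod.ext hh.2 hh.1
      have h2 := h1.comp _ hinj
      have heq2 : (Fermat.Agent.ProgramR.BarField.powFamily y θ (t + 1)) =
          (Frame.monomialsFam y θ t ∘
            fun ik : Fin (dedekindPsi N) × Fin (t + 1) => ((ik.2, ik.1) : Fin (t + 1) × Fin (dedekindPsi N))) := by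
        funext ik
        rfl
      rw [heq2]
      exact h2
  -- representation
  have hyeq : y = Fermat.Agent.ProgramR.BarField.jBar Qb N :=
    Subtype.ext (by
      rw [Fermat.Agent.ProgramR.BarField.coe_jBar]
      exact coeffMap_jqModC _)
  have exists_repr : ∀ f : FBar N, ∃ (q : Qb[X]) (p : Fin (dedekindPsi N) → Qb[X]), q ≠ 0 ∧
      f * aeval y q = ∑ i, aeval y (p i) * θ i := by
    intro f
    by_contra hcon
    have hind' : ∀ p : Fin (dedekindPsi N + 1) → Qb[X],
        ∑ i, aeval (Fermat.Agent.ProgramR.BarField.jBar Qb N) (p i) *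
          (Fin.cons f θ : Fin (dedekindPsi N + 1) → FBar N) i = 0 → ∀ i, p i = 0 := by
      intro p hp
      rw [Fin.sum_univ_succ, ← hyeq] at hp
      simp only [Fin.cons_zero, Fin.cons_succ] at hp
      have hp0 : p 0 = 0 := by
        by_contra h0
        refine hcon ⟨p 0, fun i => - p i.succ, h0, ?_⟩
        simp only [map_neg, neg_mul, Finset.sum_neg_distrib]
        linear_combination hp
      rw [hp0, map_zero, zero_mul, zero_add] at hp
      have h2 := hθind (fun i => p i.succ) hp
      intro i
      exact Fin.cases hp0 h2 i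
    have := Fermat.Agent.ProgramR.BarField.card_le_of_poly_independent N
      Fermat.Agent.ProgramR.BarField.qbarEmb (Fin.cons f θ) hind'
    omega
  exact Frame.IsFrameFamily.hasOrthonormalBases
    ⟨Fermat.Agent.ProgramR.BarField.dedekindPsi_pos N, y_mem, θ_mem, exists_repr, red_indep⟩

end Main

end Fermat.Agent.S18lib.V
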