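/-
S18lib / V / RankOne  (helper7)

The valuation subring `A` of `Q̄` lying over a prime `ℓ` has rank one, in the elementary form
needed by the Cech doubling (C): for a non-unit `c` and a nonzero `d`, some power of `c` does not
divide `d`.  Mathlib + `ValuationSubring.LiesOverPrime` only.
-/
import Mathlib
import Fermat.Prelude.Def_FLTPrelim_Ramification

set_option autoImplicit false

noncomputable section

namespace Fermat.Agent.S18lib

namespace RankOne

open Polynomial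

local notation "Qb" => AlgebraicClosure ℚ

/-- every element of `Q̄` is a root of a primitive integer polynomial -/
theorem exists_primitive_aeval_eq_zero (x : Qb) :
    ∃ q : ℤ[X], q.IsPrimitive ∧ aeval x q = 0 := by
  have hQ : Algebra.IsAlgebraic ℚ Qb := AlgebraicClosure.isAlgebraic ℚ
  have halg : IsAlgebraic ℤ x :=
    (IsFractionRing.isAlgebraic_iff ℤ ℚ Qb).mpr (hQ.isAlgebraic x)
  obtain ⟨p, hp0, hp⟩ := halg
  exact ⟨p.primPart, p.isPrimitive_primPart, aeval_primPart_eq_zero hp0 hp⟩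

/-- a nonzero element of `Q̄` is a root of an integer polynomial with nonzero constant term -/
theorem exists_aeval_eq_zero_coeff_zero_ne (x : Qb) (hx : x ≠ 0) :
    ∃ q : ℤ[X], q.coeff 0 ≠ 0 ∧ aeval x q = 0 := by
  have hQ : Algebra.IsAlgebraic ℚ Qb := AlgebraicClosure.isAlgebraic ℚ
  have halg : IsAlgebraic ℤ x :=
    (IsFractionRing.isAlgebraic_iff ℤ ℚ Qb).mpr (hQ.isAlgebraic x)
  obtain ⟨p, hp0, hp⟩ := halg
  obtain ⟨q, hq, hnd⟩ := exists_eq_pow_rootMultiplicity_mul_and_not_dvd p hp0 0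
  refine ⟨q, fun h0 => hnd ?_, ?_⟩
  · rw [C_0, sub_zero]
    exact X_dvd_iff.mpr h0
  · rw [hq, map_mul, map_pow, C_0, sub_zero, aeval_X] at hp
    exact (mul_eq_zero.mp hp).resolve_left (pow_ne_zero _ hx)

variable {ℓ : ℕ}
variable (A : ValuationSubring (AlgebraicClosure ℚ))

theorem val_ell_lt_one (hA : A.LiesOverPrime ℓ) : A.valuation ((ℓ : ℕ) : Qb) < 1 :=
  A.mem_nonunits_iff.mp hA

theorem val_int_le_one (m : ℤ) : A.valuation ((m : ℤ) : Qb) ≤ 1 :=
  (A.valuation_le_one_iff _).mpr (intCast_mem A m)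

theorem val_int_le_of_dvd (m : ℤ) (h : (ℓ : ℤ) ∣ m) :
    A.valuation ((m : ℤ) : Qb) ≤ A.valuation ((ℓ : ℕ) : Qb) := by
  obtain ⟨t, rfl⟩ := h
  have : (((ℓ : ℤ) * t : ℤ) : Qb) = ((ℓ : ℕ) : Qb) * ((t : ℤ) : Qb) := by push_cast; ring
  rw [this, map_mul]
  exact mul_le_of_le_one_right' (val_int_le_one A t)

theorem val_int_eq_one [Fact ℓ.Prime] (hA : A.LiesOverPrime ℓ) (m : ℤ) (h : ¬ (ℓ : ℤ) ∣ m) :
    A.valuation ((m : ℤ) : Qb) = 1 := by
  have hp : Prime (ℓ : ℤ) := Nat.prime_iff_prime_int.mp (Fact.out : ℓ.Prime)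
  have hcop : IsCoprime (ℓ : ℤ) m := (Prime.coprime_iff_not_dvd hp).mpr h
  obtain ⟨x, y, hxy⟩ := hcop
  have h1 : ((x : ℤ) : Qb) * ((ℓ : ℕ) : Qb) + ((y : ℤ) : Qb) * ((m : ℤ) : Qb) = 1 := by
    have := congrArg (fun z : ℤ => (z : Qb)) hxy
    simpa using this
  by_contra hne
  have hlt : A.valuation ((m : ℤ) : Qb) < 1 := lt_of_le_of_ne (val_int_le_one A m) hne
  have h2 : A.valuation (((x : ℤ) : Qb) * ((ℓ : ℕ) : Qb) + ((y : ℤ) : Qb) * ((m : ℤ) : Qb)) < 1 := by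
    refine lt_of_le_of_lt (A.valuation.map_add _ _) (max_lt ?_ ?_)
    · rw [map_mul]
      exact lt_of_le_of_lt (mul_le_of_le_one_left' (val_int_le_one A x)) (val_ell_lt_one A hA)
    · rw [map_mul]
      exact lt_of_le_of_lt (mul_le_of_le_one_left' (val_int_le_one A y)) hlt
  rw [h1, map_one] at h2
  exact lt_irrefl _ h2

/-- a power of any non-unit is divisible by `ℓ` (in valuation form) -/
theorem exists_pow_le [Fact ℓ.Prime] (hA : A.LiesOverPrime ℓ) (c : Qb) (hc : A.valuation c < 1) :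
    ∃ M : ℕ, A.valuation c ^ M ≤ A.valuation ((ℓ : ℕ) : Qb) := by
  by_cases hc0 : c = 0
  · exact ⟨1, by rw [hc0, map_zero, pow_one]; exact zero_le⟩
  obtain ⟨q, hprim, hq⟩ := exists_primitive_aeval_eq_zero c
  have hp : Prime (ℓ : ℤ) := Nat.prime_iff_prime_int.mp (Fact.out : ℓ.Prime)
  have hex : ∃ i, ¬ (ℓ : ℤ) ∣ q.coeff i := by
    by_contra hall
    have hall' : ∀ i, (ℓ : ℤ) ∣ q.coeff i := fun i => by_contra fun h => hall ⟨i, h⟩
    have : C (ℓ : ℤ) ∣ q := (C_dvd_iff_dvd_coeff _ _).mpr hall'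
    exact hp.not_isUnit (hprim _ this)
  classical
  set i₀ := Nat.find hex with hi₀
  have h1 : ¬ (ℓ : ℤ) ∣ q.coeff i₀ := Nat.find_spec hex
  have h2 : ∀ i < i₀, (ℓ : ℤ) ∣ q.coeff i := fun i hi => by
    by_contra h
    exact Nat.find_min hex hi h
  have hmem : i₀ ∈ Finset.range (q.natDegree + 1) := by
    rw [Finset.mem_range, Nat.lt_succ_iff]
    exact le_natDegree_of_ne_zero fun h0 => h1 (h0 ▸ dvd_zero _)
  rw [aeval_eq_sum_range, ← Finset.add_sum_erase _ _ hmem] at hq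
  set v := A.valuation with hv
  have hvc0 : v c ≠ 0 := (Valuation.ne_zero_iff _).mpr hc0
  have hterm : ∀ i, v (q.coeff i • c ^ i) = v ((q.coeff i : ℤ) : Qb) * v c ^ i := fun i => by
    rw [zsmul_eq_mul, map_mul, map_pow]
  have hmain : v c ^ i₀ ≤ max (v ((ℓ : ℕ) : Qb)) (v c ^ (i₀ + 1)) := by
    have e1 : q.coeff i₀ • c ^ i₀ = -∑ i ∈ (Finset.range (q.natDegree + 1)).erase i₀, q.coeff i • c ^ i :=
      eq_neg_of_add_eq_zero_left hq
    have e2 : v (q.coeff i₀ • c ^ i₀) = v c ^ i₀ := by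
      rw [hterm, val_int_eq_one A hA _ h1, one_mul]
    rw [← e2, e1, Valuation.map_neg]
    refine Valuation.map_sum_le _ fun i hi => ?_
    rw [Finset.mem_erase] at hi
    rw [hterm]
    rcases lt_or_gt_of_ne hi.1 with hlt | hgt
    · refine le_trans ?_ (le_max_left _ _)
      calc v ((q.coeff i : ℤ) : Qb) * v c ^ i ≤ v ((q.coeff i : ℤ) : Qb) :=
            mul_le_of_le_one_right' (pow_le_one' hc.le i)
        _ ≤ _ := val_int_le_of_dvd A _ (h2 i hlt)
    · refine le_trans ?_ (le_max_right _ _)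
      calc v ((q.coeff i : ℤ) : Qb) * v c ^ i ≤ v c ^ i :=
            mul_le_of_le_one_left' (val_int_le_one A _)
        _ ≤ v c ^ (i₀ + 1) := pow_le_pow_right_of_le_one' hc.le hgt
  refine ⟨i₀ + 1, ?_⟩
  by_contra hlt
  rw [not_le] at hlt
  rw [max_eq_right hlt.le, pow_succ] at hmain
  have hpos : 0 < v c ^ i₀ := zero_lt_iff.mpr (pow_ne_zero _ hvc0)
  exact absurd hmain (not_le.mpr (mul_lt_of_lt_one_right hpos hc))

/-- integers are bounded below by a power of `ℓ` (in valuation form) -/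
theorem exists_pow_le_val_int [Fact ℓ.Prime] (hA : A.LiesOverPrime ℓ) (b : ℤ) (hb : b ≠ 0) :
    ∃ e : ℕ, A.valuation ((ℓ : ℕ) : Qb) ^ e ≤ A.valuation ((b : ℤ) : Qb) := by
  have hp : Prime (ℓ : ℤ) := Nat.prime_iff_prime_int.mp (Fact.out : ℓ.Prime)
  have hfin : FiniteMultiplicity (ℓ : ℤ) b :=
    Int.finiteMultiplicity_iff.mpr ⟨by simpa using (Fact.out : ℓ.Prime).ne_one, hb⟩
  obtain ⟨u, hu, hnd⟩ := hfin.exists_eq_pow_mul_and_not_dvd
  refine ⟨multiplicity (ℓ : ℤ) b, ?_⟩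
  have : ((b : ℤ) : Qb) = ((ℓ : ℕ) : Qb) ^ multiplicity (ℓ : ℤ) b * ((u : ℤ) : Qb) := by
    conv_lhs => rw [hu]
    push_cast
    ring
  rw [this, map_mul, map_pow, val_int_eq_one A hA u hnd, mul_one]

/-- every nonzero element is bounded below by a power of `ℓ` (in valuation form) -/
theorem exists_pow_le_val [Fact ℓ.Prime] (hA : A.LiesOverPrime ℓ) (d : Qb) (hd : d ≠ 0)
    (hdA : A.valuation d ≤ 1) :
    ∃ e : ℕ, A.valuation ((ℓ : ℕ) : Qb) ^ e ≤ A.valuation d := by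
  obtain ⟨q, hq0, hq⟩ := exists_aeval_eq_zero_coeff_zero_ne d hd
  obtain ⟨e, he⟩ := exists_pow_le_val_int A hA (q.coeff 0) hq0
  refine ⟨e, he.trans ?_⟩
  -- `q.coeff 0 = - d * (∑_{i ≥ 1} q_i d^(i-1))`
  rw [aeval_eq_sum_range, Finset.sum_range_succ', pow_zero, zsmul_eq_mul, mul_one] at hq
  have e1 : ((q.coeff 0 : ℤ) : Qb) = -∑ i ∈ Finset.range q.natDegree, q.coeff (i + 1) • d ^ (i + 1) :=
    eq_neg_of_add_eq_zero_right hq
  rw [e1, Valuation.map_neg]
  refine Valuation.map_sum_le _ fun i _ => ?_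
  rw [zsmul_eq_mul, map_mul, map_pow, pow_succ]
  calc A.valuation ((q.coeff (i + 1) : ℤ) : Qb) * (A.valuation d ^ i * A.valuation d)
      ≤ 1 * (1 * A.valuation d) :=
        mul_le_mul' (val_int_le_one A _) (mul_le_mul' (pow_le_one' hdA i) le_rfl)
    _ = A.valuation d := by rw [one_mul, one_mul]

end RankOne

open RankOne in
/-- `A` has rank one: powers of a non-unit eventually fail to divide any fixed nonzero element. -/
theorem rankOne_of_liesOverPrime {ℓ : ℕ} [Fact ℓ.Prime] (A : ValuationSubring (AlgebraicClosure ℚ))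
    (hA : A.LiesOverPrime ℓ) :
    ∀ c : A, c ∈ IsLocalRing.maximalIdeal A → ∀ d : A, d ≠ 0 → ∃ n : ℕ, ¬ c ^ n ∣ d := by
  intro c hc d hd
  have hvc : A.valuation (c : AlgebraicClosure ℚ) < 1 := (A.valuation_lt_one_iff c).mp hc
  have hd' : (d : AlgebraicClosure ℚ) ≠ 0 := fun h => hd (Subtype.ext h)
  obtain ⟨M, hM⟩ := exists_pow_le A hA (c : AlgebraicClosure ℚ) hvc
  obtain ⟨e, he⟩ := exists_pow_le_val A hA (d : AlgebraicClosure ℚ) hd' (A.valuation_le_one d)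
  refine ⟨M * (e + 1), fun hdvd => ?_⟩
  obtain ⟨t, ht⟩ := hdvd
  have hval : A.valuation (d : AlgebraicClosure ℚ) ≤
      A.valuation ((ℓ : ℕ) : AlgebraicClosure ℚ) ^ (e + 1) := by
    have : (d : AlgebraicClosure ℚ) = (c : AlgebraicClosure ℚ) ^ (M * (e + 1)) * (t : AlgebraicClosure ℚ) := by
      have := congrArg (fun z : A => (z : AlgebraicClosure ℚ)) ht
      simpa using this
    rw [this, map_mul, map_pow, pow_mul]
    calc (A.valuation (c : AlgebraicClosure ℚ) ^ M) ^ (e + 1) * A.valuation (t : AlgebraicClosure ℚ)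
        ≤ (A.valuation (c : AlgebraicClosure ℚ) ^ M) ^ (e + 1) :=
          mul_le_of_le_one_right' (A.valuation_le_one t)
      _ ≤ _ := pow_le_pow_left' hM (e + 1)
  have hℓ : A.valuation ((ℓ : ℕ) : AlgebraicClosure ℚ) < 1 := val_ell_lt_one A hA
  have hℓ0 : A.valuation ((ℓ : ℕ) : AlgebraicClosure ℚ) ≠ 0 :=
    (Valuation.ne_zero_iff _).mpr (by exact_mod_cast (Fact.out : ℓ.Prime).ne_zero)
  have hpos : 0 < A.valuation ((ℓ : ℕ) : AlgebraicClosure ℚ) ^ e := zero_lt_iff.mpr (pow_ne_zero _ hℓ0)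
  have := he.trans hval
  rw [pow_succ] at this
  exact absurd this (not_le.mpr (mul_lt_of_lt_one_right hpos hℓ))

end Fermat.Agent.S18lib
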